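import Fermat.Agent.S59.TW.Spec
import Fermat.Agent.S59.G4.H307.Desc
import Fermat.Agent.S59.G4.H178.Odd
import Fermat.Agent.S59.H405.TWConj
import Fermat.Agent.S59.H765.TraceClosed

/-!
# Row S59, cell TW, layer 2, leaf RESG (helper765): `TW.ResGalStatement`

A restriction map `res : T_{Σ'} → T_Σ` between two Hecke packages (`T_ℓ ↦ T_ℓ` for the primes `ℓ`
good for both levels) is a local homomorphism and `ρ_{Σ'} ⊗_res T_Σ ≅ ρ_Σ`.

* `isLocalHom_of_finite765` : an `𝒪`-algebra homomorphism from a local ring finite over `𝒪` to a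
  local `𝒪`-algebra with local structure map is local.
* `trace_baseChangeAlong765` : the trace of a base change.
* `map_trace_eq_of_frob765` : if `φ (tr ρ'(Frob_ℓ)) = tr ρ(Frob_ℓ)` for all primes `ℓ` outside a
  finite set, then `φ (tr ρ' σ) = tr ρ σ` for all `σ` (Chebotarev + continuity + Krull).
* `resGal : ResGalStatement`.
-/

set_option autoImplicit false
set_option linter.unusedSectionVars false
set_option linter.unusedVariables false
set_option linter.style.haveILetI false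

namespace Fermat.Agent.S59.TW.H765

open Polynomial IsLocalRing
open Fermat.Agent.S59.Arch Fermat.Agent.S59.TW.H959 Fermat.Agent.S59.TW

section Local

variable {𝒪 : Type*} [CommRing 𝒪] [IsLocalRing 𝒪] [IsNoetherianRing 𝒪]
  {T T' : Type*} [CommRing T] [IsLocalRing T] [CommRing T'] [IsLocalRing T']
  [Algebra 𝒪 T] [Algebra 𝒪 T'] [Module.Finite 𝒪 T'] [IsLocalHom (algebraMap 𝒪 T)]

/-- An `𝒪`-algebra homomorphism from a local ring finite over the Noetherian local ring `𝒪` to a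
local `𝒪`-algebra whose structure map is local is a local homomorphism. -/
theorem isLocalHom_of_finite765 (res : T' →ₐ[𝒪] T) : IsLocalHom (res : T' →+* T) := by
  constructor
  intro x hx
  by_contra hxu
  have hxm : x ∈ maximalIdeal T' := (mem_maximalIdeal x).mpr hxu
  obtain ⟨e, he⟩ := Fermat.Agent.S59.H765.exists_maximalIdeal_pow_le_map765 (𝒪 := 𝒪) (T := T')
  have h1 : x ^ e ∈ (maximalIdeal 𝒪).map (algebraMap 𝒪 T') := he (Ideal.pow_mem_pow hxm e)
  have h2 : (res : T' →+* T) (x ^ e) ∈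
      ((maximalIdeal 𝒪).map (algebraMap 𝒪 T')).map (res : T' →+* T) :=
    Ideal.mem_map_of_mem _ h1
  rw [Ideal.map_map, AlgHom.comp_algebraMap] at h2
  have h4 : (maximalIdeal 𝒪).map (algebraMap 𝒪 T) ≤ maximalIdeal T :=
    Ideal.map_le_iff_le_comap.mpr fun a ha =>
      Ideal.mem_comap.mpr (map_nonunit (algebraMap 𝒪 T) a ha)
  have h5 := h4 h2
  rw [map_pow] at h5
  have h6 : (res : T' →+* T) x ∈ maximalIdeal T :=
    Ideal.IsPrime.mem_of_pow_mem inferInstance e h5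
  exact (mem_maximalIdeal _).mp h6 hx

end Local

section Trace

/-- The trace of a base change. -/
theorem trace_baseChangeAlong765 {A B : Type} [CommRing A] [IsLocalRing A] [CommRing B]
    [IsLocalRing B] (φ : A →+* B) (hφ : IsLocalHom φ) (ρ : GaloisRepAdic A) (σ : GQ) :
    (ρ.baseChangeAlong φ hφ).trace σ = φ (ρ.trace σ) := by
  letI : Algebra A B := φ.toAlgebra
  exact LinearMap.trace_baseChange (ρ.ρ σ) B

variable {A B : Type} [CommRing A] [IsLocalRing A] [CommRing B] [IsLocalRing B]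
  [IsNoetherianRing B]

/-- **Traces are determined by the Frobenius elements**: if a local homomorphism `φ` maps
`tr ρ'(Frob_ℓ)` to `tr ρ(Frob_ℓ)` for all primes `ℓ` outside a finite set, it maps `tr ρ'(σ)` to
`tr ρ(σ)` for every `σ`. -/
theorem map_trace_eq_of_frob765 (φ : A →+* B) (hφ : IsLocalHom φ) (ρ' : GaloisRepAdic A)
    (ρ : GaloisRepAdic B) (F : Finset ℕ)
    (h : ∀ ℓ : ℕ, ℓ.Prime → ℓ ∉ F → ∀ P : ValuationSubring Qb, P.LiesOverPrime ℓ →
      ∀ τ : GQ, P.IsFrobeniusAt τ ℓ → φ (ρ'.trace τ) = ρ.trace τ) (σ : GQ) :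
    φ (ρ'.trace σ) = ρ.trace σ := by
  have hmap : ∀ n : ℕ, ∀ a ∈ maximalIdeal A ^ n, φ a ∈ maximalIdeal B ^ n := by
    intro n a ha
    have h1 : φ a ∈ (maximalIdeal A ^ n).map φ := Ideal.mem_map_of_mem φ ha
    rw [Ideal.map_pow] at h1
    exact Ideal.pow_right_mono (Ideal.map_le_iff_le_comap.mpr fun a ha =>
      Ideal.mem_comap.mpr (haveI := hφ; map_nonunit φ a ha)) n h1
  have hmem : φ (ρ'.trace σ) - ρ.trace σ ∈ ⨅ n : ℕ, maximalIdeal B ^ n := by
    rw [Ideal.mem_iInf]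
    intro n
    obtain ⟨L', hL', hc'⟩ := Fermat.Agent.S59.H765.exists_level_trace_sub_mem ρ' n
    obtain ⟨L, hL, hc⟩ := Fermat.Agent.S59.H765.exists_level_trace_sub_mem ρ n
    haveI : FiniteDimensional ℚ L' := hL'
    haveI : FiniteDimensional ℚ L := hL
    have hE : FiniteDimensional ℚ ↥(L' ⊔ L) := IntermediateField.finiteDimensional_sup L' L
    obtain ⟨ℓ, P, τ, hℓ, hℓF, hP, hτ, -, hτσ⟩ :=
      Fermat.Agent.Lib.Cheb.chebotarev (L' ⊔ L) hE σ F
    have e1 : ρ'.trace τ - ρ'.trace σ ∈ maximalIdeal A ^ n :=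
      hc' σ τ fun x hx => hτσ x ((le_sup_left : L' ≤ L' ⊔ L) hx)
    have e2 : ρ.trace τ - ρ.trace σ ∈ maximalIdeal B ^ n :=
      hc σ τ fun x hx => hτσ x ((le_sup_right : L ≤ L' ⊔ L) hx)
    have e3 : φ (ρ'.trace τ) = ρ.trace τ := h ℓ hℓ hℓF P hP τ hτ
    have e4 : φ (ρ'.trace σ) - ρ.trace σ =
        (ρ.trace τ - ρ.trace σ) - φ (ρ'.trace τ - ρ'.trace σ) := by
      rw [map_sub, e3]; ring
    rw [e4]
    exact Ideal.sub_mem _ e2 (hmap n _ e1)
  rw [Ideal.iInf_pow_eq_bot_of_isLocalRing _ (Ideal.IsMaximal.ne_top inferInstance),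
    Ideal.mem_bot] at hmem
  exact sub_eq_zero.mp hmem

end Trace

/-- **RESG.** -/
theorem resGal : ResGalStatement := by
  intro p _ hp2 𝒪 _ _ _ _ _ _ hp𝒪 ρbar _habs t Smin Sig Sig' _hSig _ _ P P' res hR
  classical
  have hp : p.Prime := Fact.out
  have hres : IsLocalHom (res : P'.T →+* P.T) := isLocalHom_of_finite765 res
  refine ⟨hres, ?_⟩
  -- `p` lies in the maximal ideal of `T`
  have hpT : (p : P.T) ∈ maximalIdeal P.T := by
    have h1 : algebraMap 𝒪 P.T (p : 𝒪) ∈ maximalIdeal P.T :=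
      map_nonunit (algebraMap 𝒪 P.T) _ hp𝒪
    rwa [map_natCast] at h1
  have h2 : IsUnit (2 : P.T) := Fermat.Agent.S59.G4.H307.isUnit_two_of_odd_mem hp hp2 hpT
  -- the determinant of `ρ` is cyclotomic, hence `ρ` is odd
  have hdet : P.H.ρ.DetIsCyclotomic p := by
    refine Fermat.Agent.S59.H540.detIsCyclotomic_of_frob P.H.ρ p hpT
      (Sig ∪ (wilesLevel p t Smin Sig).primeFactors) ?_
    intro ℓ hℓ hℓS B hB σ hσ
    have hℓS' : ℓ ∉ (↑Sig : Set ℕ) := fun h =>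
      hℓS (Finset.mem_union_left _ (Finset.mem_coe.mp h))
    have hℓN : ¬ ℓ ∣ wilesLevel p t Smin Sig := fun h =>
      hℓS (Finset.mem_union_right _ (Nat.mem_primeFactors.mpr ⟨hℓ, h, NeZero.ne _⟩))
    exact Fermat.Agent.S59.H540.det_eq_of_charpoly P.H.ρ.finrank_eq _ _ _
      (P.H.charpoly_frob ℓ hℓ hℓN hℓS' B hB σ hσ)
  obtain ⟨c, hcc, hc1⟩ := Fermat.Agent.S59.H405.exists_involution_Qbar
  have hdetc : LinearMap.det (P.H.ρ.ρ c) = -1 :=
    Fermat.Agent.S59.G4.H178.det_involution_eq_neg_one P.H.ρ p hp2 hdet c hcc hc1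
  have htrc : P.H.ρ.trace c = 0 :=
    Fermat.Agent.S59.G4.H307.trace_eq_zero_of_det_eq_neg_one P.H.ρ c hcc hdetc
  have hirr : P.H.ρ.residual.IsIrreducible :=
    Fermat.Agent.S59.G4.H307.isIrreducible_of_absIrr _ P.H.residual_absIrr
  -- the traces agree
  have htr : ∀ σ : GQ, P.H.ρ.trace σ =
      (P'.H.ρ.baseChangeAlong (res : P'.T →+* P.T) hres).trace σ := by
    intro σ
    rw [trace_baseChangeAlong765]
    symm
    refine map_trace_eq_of_frob765 (res : P'.T →+* P.T) hres P'.H.ρ P.H.ρ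
      (Sig ∪ (wilesLevel p t Smin Sig).primeFactors ∪
        (Sig' ∪ (wilesLevel p t Smin Sig').primeFactors)) ?_ σ
    intro ℓ hℓ hℓF B hB τ hτ
    have hℓS : ℓ ∉ (↑Sig : Set ℕ) := fun h =>
      hℓF (Finset.mem_union_left _ (Finset.mem_union_left _ (Finset.mem_coe.mp h)))
    have hℓN : ¬ ℓ ∣ wilesLevel p t Smin Sig := fun h =>
      hℓF (Finset.mem_union_left _
        (Finset.mem_union_right _ (Nat.mem_primeFactors.mpr ⟨hℓ, h, NeZero.ne _⟩)))
    have hℓS' : ℓ ∉ (↑Sig' : Set ℕ) := fun h =>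
      hℓF (Finset.mem_union_right _ (Finset.mem_union_left _ (Finset.mem_coe.mp h)))
    have hℓN' : ¬ ℓ ∣ wilesLevel p t Smin Sig' := fun h =>
      hℓF (Finset.mem_union_right _
        (Finset.mem_union_right _ (Nat.mem_primeFactors.mpr ⟨hℓ, h, NeZero.ne _⟩)))
    have e' : P'.H.ρ.trace τ = P'.H.π (CuspForm.heckeAlgebra.T hℓ hℓN' hℓS') :=
      Fermat.Agent.S59.H765.trace_eq_of_charpoly P'.H.ρ.finrank_eq _ _ _
        (P'.H.charpoly_frob ℓ hℓ hℓN' hℓS' B hB τ hτ)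
    have e : P.H.ρ.trace τ = P.H.π (CuspForm.heckeAlgebra.T hℓ hℓN hℓS) :=
      Fermat.Agent.S59.H765.trace_eq_of_charpoly P.H.ρ.finrank_eq _ _ _
        (P.H.charpoly_frob ℓ hℓ hℓN hℓS B hB τ hτ)
    rw [e', e]
    exact hR ℓ hℓ hℓN' hℓS' hℓN hℓS
  obtain ⟨E⟩ := Fermat.Agent.S59.H307.isEquiv_of_trace_eq h2 P.H.ρ
    (P'.H.ρ.baseChangeAlong (res : P'.T →+* P.T) hres) htr c hcc htrc hirr
  exact ⟨E.symm⟩

end Fermat.Agent.S59.TW.H765
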